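import Fermat.Agent.Root.TateLift.Basis
import Fermat.Agent.Multiplicative.Inertia

/-!
# A point of order two off the identity component

The witness that starts the line on the identity component of `E[2ⁿ]` at a multiplicative prime,
for every residue characteristic.
-/

set_option autoImplicit false

noncomputable section

open WeierstrassCurve
open scoped WeierstrassCurve.Affine

namespace Fermat.Agent.Root.TwoPower

open Fermat.Agent.Multiplicative TateLift

local notation "Qbar" => AlgebraicClosure ℚ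

variable {W : WeierstrassCurve ℤ} {A : ValuationSubring Qbar} {q : ℕ} (h : MultAt W A q)
include h

/-- Some point of order two is off the identity component. -/
theorem exists_two_torsion_notMem :
    ∃ P : EP W, 2 • P = 0 ∧ P ∉ h.node.E0 := by
  set N := h.node
  have hu := N.u_ne_zero
  obtain ⟨X₁, hX₁⟩ := IsAlgClosed.exists_root
    (Polynomial.C (4 : Qbar) * Polynomial.X ^ 3 + Polynomial.X ^ 2 + Polynomial.C (4 * N.a))
    (by rw [show Polynomial.degree _ = ((3 : ℕ) : WithBot ℕ) by compute_degree!]; decide)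
  simp only [Polynomial.IsRoot, Polynomial.eval_add, Polynomial.eval_mul, Polynomial.eval_C,
    Polynomial.eval_pow, Polynomial.eval_X] at hX₁
  -- a root in the open unit disc
  obtain ⟨X, hX, hroot⟩ : ∃ X : Qbar, A.valuation X < 1 ∧ 4 * X ^ 3 + X ^ 2 + 4 * N.a = 0 := by
    by_cases hlt : A.valuation X₁ < 1
    · exact ⟨X₁, hlt, hX₁⟩
    obtain ⟨d, hd⟩ := IsAlgClosed.exists_pow_nat_eq
      ((4 * X₁ + 1) ^ 2 - 16 * (X₁ * (4 * X₁ + 1))) (n := 2) two_pos
    set X₂ := (-(4 * X₁ + 1) + d) / 8
    set X₃ := (-(4 * X₁ + 1) - d) / 8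
    have hsum : X₂ + X₃ = -(4 * X₁ + 1) / 4 := by simp only [X₂, X₃]; ring
    have hprod : X₂ * X₃ = X₁ * (4 * X₁ + 1) / 4 := by
      simp only [X₂, X₃]; linear_combination (-1 / 64) * hd
    have h23 : X₁ * (X₂ * X₃) = -N.a := by rw [hprod]; linear_combination (1 / 4) * hX₁
    by_contra hcon
    push Not at hcon
    have h2 : 1 ≤ A.valuation X₂ := not_lt.1 fun hh => hcon X₂ hh (by
      linear_combination hX₁ + (4 * X₂ - 4 * X₁) * X₂ * hsum
        + (-(4 * X₂ - 4 * X₁)) * hprod)
    have h3 : 1 ≤ A.valuation X₃ := not_lt.1 fun hh => hcon X₃ hh (by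
      linear_combination hX₁ + (4 * X₃ - 4 * X₁) * X₃ * hsum
        + (-(4 * X₃ - 4 * X₁)) * hprod)
    have := congrArg A.valuation h23
    rw [Valuation.map_neg, map_mul, map_mul] at this
    exact absurd N.ha (not_lt.2 (this ▸ one_le_mul (not_lt.1 hlt) (one_le_mul h2 h3)))
  set x := N.u ^ 2 * X + N.r with hx
  set y := N.u ^ 3 * (-X / 2) + N.s * (x - N.r) + N.t with hy
  have heq : (((W.map (Int.castRingHom ℚ))⁄Qbar)).toAffine.Equation x y := by
    rw [Affine.equation_iff]
    simp only [hy, hx]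
    linear_combination -(N.u ^ 6 / 4) * hroot - N.u ^ 2 * X * N.eq₄ - (N.u ^ 2 * X) ^ 2 * N.eq₂
      + N.u ^ 3 * (-X / 2) * N.eq₃ + N.u ^ 2 * X * (N.u ^ 3 * (-X / 2)) * N.eq₁ - N.eq₆
  have := h.isElliptic
  have hns := Affine.equation_iff_nonsingular.1 heq
  have hXx : N.X x = X := by simp only [NodeData.X, hx]; field_simp; ring
  have hYy : N.Y x y = -X / 2 := by simp only [NodeData.Y, hy]; field_simp; ring
  refine ⟨.some x y hns, ?_, ?_⟩
  · rw [two_nsmul]
    refine Affine.Point.add_of_Y_eq rfl ?_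
    have h1 := N.Y_negY x y
    rw [hYy, hXx, show -X - -X / 2 = -X / 2 by ring, ← hYy] at h1
    simp only [NodeData.Y] at h1
    field_simp at h1
    linear_combination -h1
  · rw [NodeData.mem_E0]
    exact not_le.2 (hXx.symm ▸ hX : A.valuation (N.X x) < 1)

end Fermat.Agent.Root.TwoPower
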