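import Fermat.Agent.Multiplicative.Inertia

/-!
# The nodal normal form under the decomposition group

An element of the decomposition group either fixes the scaling of the normal form or negates it,
and acts on components accordingly.
-/

set_option autoImplicit false

noncomputable section

open WeierstrassCurve
open scoped WeierstrassCurve.Affine

namespace Fermat.Agent.Root.TwoPower

open Fermat.Agent.Multiplicative

local notation "Qbar" => AlgebraicClosure ℚ
local notation "ΓQ" => (AlgebraicClosure ℚ ≃ₐ[ℚ] AlgebraicClosure ℚ)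
local notation "EQ" W => ((WeierstrassCurve.map W (Int.castRingHom ℚ))⁄(AlgebraicClosure ℚ))

section Invariants

variable {K : Type*} [Field K] {Γ₀ : Type*} [LinearOrderedCommGroupWithZero Γ₀]
variable {v : Valuation K Γ₀} {V : WeierstrassCurve K} (N : NodeData v V)

theorem node_c₄ : V.c₄ = N.u ^ 4 := by
  have h := congrArg WeierstrassCurve.c₄ N.change_smul
  have hu := N.u_ne_zero
  rw [variableChange_c₄] at h
  simp only [NodeData.change, Units.val_inv_eq_inv_val, Units.val_mk0] at h
  rw [show (⟨1, 0, 0, 0, N.a⟩ : WeierstrassCurve K).c₄ = 1 by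
    simp [WeierstrassCurve.c₄, b₂, b₄]] at h
  field_simp at h
  exact h

theorem node_c₆ : V.c₆ = -(N.u ^ 6 * (1 + 864 * N.a)) := by
  have h := congrArg WeierstrassCurve.c₆ N.change_smul
  have hu := N.u_ne_zero
  rw [variableChange_c₆] at h
  simp only [NodeData.change, Units.val_inv_eq_inv_val, Units.val_mk0] at h
  rw [show (⟨1, 0, 0, 0, N.a⟩ : WeierstrassCurve K).c₆ = -(1 + 864 * N.a) by
    simp [WeierstrassCurve.c₆, b₂, b₄, b₆]; ring] at h
  field_simp at h
  linear_combination h

theorem node_Δ : V.Δ = -(N.u ^ 12 * (N.a * (1 + 432 * N.a))) := by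
  have h := congrArg WeierstrassCurve.Δ N.change_smul
  have hu := N.u_ne_zero
  rw [variableChange_Δ] at h
  simp only [NodeData.change, Units.val_inv_eq_inv_val, Units.val_mk0] at h
  rw [show (⟨1, 0, 0, 0, N.a⟩ : WeierstrassCurve K).Δ = -(N.a * (1 + 432 * N.a)) by
    simp only [WeierstrassCurve.Δ, b₂, b₄, b₆, b₈]; ring] at h
  field_simp at h
  linear_combination h

theorem one_add_ne_zero_of_small {c : K} (n : ℕ) [n.AtLeastTwo] (hc : v c < 1) :
    1 + (OfNat.ofNat n : K) * c ≠ 0 := fun h => by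
  have h1 : v ((OfNat.ofNat n : K) * c) < 1 := by
    rw [map_mul]; exact (mul_le_of_le_one_left zero_le (v_ofNat_le_one v n)).trans_lt hc
  rw [show (OfNat.ofNat n : K) * c = -1 by linear_combination h, Valuation.map_neg, map_one] at h1
  exact lt_irrefl _ h1

end Invariants

variable {W : WeierstrassCurve ℤ} {A : ValuationSubring Qbar} {q : ℕ} (h : MultAt W A q)
include h

/-- An element of the decomposition group maps the scaling to itself or its negative, and
multiplies components by the same sign. -/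
theorem comp_smul_decomposition {σ : ΓQ} (hσ : σ ∈ A.decompositionSubgroup ℚ) :
    (σ h.node.u = h.node.u ∧ ∀ P : (EQ W).Point, h.node.comp (σ • P) = h.node.comp P) ∨
    (σ h.node.u = -h.node.u ∧ ∀ P : (EQ W).Point, h.node.comp (σ • P) = -h.node.comp P) := by
  set N := h.node
  have hu := N.u_ne_zero
  have c₄fix : σ (EQ W).c₄ = (EQ W).c₄ := by rw [coeffc₄]; simp
  have c₆fix : σ (EQ W).c₆ = (EQ W).c₆ := by simp [WeierstrassCurve.baseChange]
  have Δfix : σ (EQ W).Δ = (EQ W).Δ := by rw [coeffΔ]; simp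
  rw [node_c₄ N] at c₄fix
  rw [node_c₆ N] at c₆fix
  rw [node_Δ N] at Δfix
  simp only [map_neg, map_mul, map_pow, map_add, map_one, map_ofNat, neg_inj] at c₄fix c₆fix Δfix
  have hσa : A.valuation (σ N.a) < 1 := by rw [v_apply hσ]; exact N.ha
  have ha : σ N.a = N.a := by
    have hfac : (σ N.a - N.a) * (1 + 432 * (σ N.a + N.a)) = 0 := by
      have h12 : σ N.u ^ 12 = N.u ^ 12 := by
        rw [show 12 = 4 * 3 by norm_num, pow_mul, pow_mul, c₄fix]
      rw [h12] at Δfix
      have := mul_left_cancel₀ (pow_ne_zero 12 hu) Δfix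
      linear_combination this
    exact sub_eq_zero.1 ((mul_eq_zero.1 hfac).resolve_right
      (one_add_ne_zero_of_small 432 (Valuation.map_add_lt _ hσa N.ha)))
  rw [ha] at c₆fix
  have h6 : σ N.u ^ 6 = N.u ^ 6 :=
    mul_right_cancel₀ (one_add_ne_zero_of_small 864 N.ha) c₆fix
  have h2 : σ N.u ^ 2 = N.u ^ 2 := by
    refine mul_right_cancel₀ (pow_ne_zero 4 hu) ?_
    linear_combination h6 - σ N.u ^ 2 * c₄fix
  have e₁ := congrArg σ N.eq₁
  have e₃ := congrArg σ N.eq₃
  have hb : σ ((EQ W).a₁ ^ 2 + 4 * (EQ W).a₂) = (EQ W).a₁ ^ 2 + 4 * (EQ W).a₂ := by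
    rw [coeff₁, coeff₂]; simp [map_ofNat]
  have ha₁ : σ (EQ W).a₁ = (EQ W).a₁ := by rw [coeff₁]; simp
  have ha₃ : σ (EQ W).a₃ = (EQ W).a₃ := by rw [coeff₃]; simp
  have hu2 : N.u ^ 2 = (EQ W).a₁ ^ 2 + 4 * (EQ W).a₂ + 12 * N.r := by
    linear_combination -((EQ W).a₁ + 2 * N.s + N.u) * N.eq₁ - 4 * N.eq₂
  have hr : σ N.r = N.r := by
    have e := congrArg σ hu2
    rw [map_pow, h2, map_add, hb, map_mul, map_ofNat, hu2] at e
    exact mul_left_cancel₀ (by norm_num : (12 : Qbar) ≠ 0) (by linear_combination -e)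
  simp only [map_add, map_mul, map_zero, map_ofNat, ha₁, ha₃, hr] at e₁ e₃
  have ht : σ N.t = N.t := mul_left_cancel₀ (two_ne_zero : (2 : Qbar) ≠ 0)
    (by linear_combination e₃ - N.eq₃)
  have hX : ∀ x : Qbar, N.X (σ x) = σ (N.X x) := fun x => by
    simp only [NodeData.X, map_div₀, map_sub, map_pow, hr, h2]
  have hwv : ∀ x y : Qbar, wv A.valuation N.a (σ x) (σ y) = wv A.valuation N.a x y := fun x y => by
    simp only [wv, ← map_add, v_apply hσ]
  rcases sq_eq_sq_iff_eq_or_eq_neg.1 h2 with hpos | hneg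
  · left
    have hs : σ N.s = N.s := mul_left_cancel₀ (two_ne_zero : (2 : Qbar) ≠ 0)
      (by linear_combination e₁ - N.eq₁ + hpos)
    refine ⟨hpos, fun P => ?_⟩
    rcases P with _ | ⟨x, y, hP⟩
    · rfl
    rw [NodeData.comp_apply, NodeData.comp_apply, NodeData.cls, NodeData.cls]
    congr 2
    refine Units.ext ?_
    show wv A.valuation N.a (N.X (σ x)) (N.Y (σ x) (σ y)) =
      wv A.valuation N.a (N.X x) (N.Y x y)
    rw [hX, show N.Y (σ x) (σ y) = σ (N.Y x y) by
      simp only [NodeData.Y, map_div₀, map_sub, map_mul, map_pow, hr, hs, ht, hpos], hwv]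
  · right
    have hs : σ N.s = N.s - N.u := mul_left_cancel₀ (two_ne_zero : (2 : Qbar) ≠ 0)
      (by linear_combination e₁ - N.eq₁ + hneg)
    refine ⟨hneg, fun P => ?_⟩
    rcases P with _ | ⟨x, y, hP⟩
    · exact (map_zero N.comp).trans (neg_eq_zero.2 (map_zero N.comp)).symm
    rw [← map_neg, Affine.Point.neg_some, NodeData.comp_apply, NodeData.comp_apply, NodeData.cls,
      NodeData.cls]
    congr 2
    refine Units.ext ?_
    show wv A.valuation N.a (N.X (σ x)) (N.Y (σ x) (σ y)) =
      wv A.valuation N.a (N.X x) (N.Y x ((EQ W).toAffine.negY x y))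
    rw [N.Y_negY, hX, show N.Y (σ x) (σ y) = σ (-N.X x - N.Y x y) by
      simp only [NodeData.Y, NodeData.X, map_div₀, map_sub, map_mul, map_pow, map_neg, hr, hs, ht,
        hneg]
      field_simp
      ring, hwv]

end Fermat.Agent.Root.TwoPower
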